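import Fermat.Agent.Lower.Defs
import Fermat.Agent.Local.Unramified

/-!
# A point unramified at `q` comes from lower level

`exists_eigensystem_div_of_unramified`: a point of a Hecke–Galois datum at level `M` whose
representation is unramified at `q ∥ M` gives a system of Hecke eigenvalues at level `M / q`.
Deduced from `Local.exists_hom_div_of_unramified`.
-/

set_option autoImplicit false

noncomputable section

namespace FLTAgent.Lower

open IsLocalRing (ResidueField maximalIdeal)

/-- A system of Hecke eigenvalues unramified at `q` occurs at level `M / q`. -/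
theorem exists_eigensystem_div_of_unramified
    {O : Type} [CommRing O] [IsDomain O] [IsDiscreteValuationRing O]
    [IsAdicComplete (maximalIdeal O) O] [Finite (ResidueField O)] [CharZero O]
    {p : ℕ} (hp : p.Prime) (hpO : (p : O) ∈ maximalIdeal O)
    {M : ℕ} [NeZero M] {S : Finset ℕ} (hpS : p ∈ S)
    (hMS : ∀ l : ℕ, l.Prime → l ∣ M → l ∈ S)
    {θ : CuspForm.heckeAlgebra M 2 (↑S : Set ℕ) →+* ResidueField O}
    {T : Type} [CommRing T] [IsLocalRing T] [IsNoetherianRing T]
    [IsAdicComplete (maximalIdeal T) T] [Algebra O T] [IsLocalHom (algebraMap O T)]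
    [Module.Finite O T] [Module.Free O T]
    (H : CuspForm.HeckeGaloisRepDatum M (↑S : Set ℕ) O θ T)
    (hirr : H.ρ.residual.IsAbsolutelyIrreducible)
    {q : ℕ} (hq : q.Prime) (hqp : q ≠ p) (hqM : q ∣ M) (hq2 : ¬ q ^ 2 ∣ M) [NeZero (M / q)]
    (O' : Type) [CommRing O'] [IsDomain O'] [IsDiscreteValuationRing O']
    [IsAdicComplete (maximalIdeal O') O'] [Finite (ResidueField O')] [CharZero O']
    [Algebra O O'] [Module.Finite O O'] [IsLocalHom (algebraMap O O')]
    (ψ : T →ₐ[O] O') (hψ : IsLocalHom (ψ : T →+* O'))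
    (hunr : (H.ρ.baseChangeAlong (ψ : T →+* O') hψ).IsUnramifiedAt q) :
    ∃ (K : Type) (_ : Field K) (_ : CharZero K) (i : O' →+* K)
      (χ : CuspForm.heckeAlgebra (M / q) 2 (↑S : Set ℕ) →+* K),
        ∀ (l : ℕ) (hl : l.Prime) (hlM : ¬ l ∣ M) (hlS : l ∉ (↑S : Set ℕ)),
          χ (CuspForm.heckeAlgebra.T hl (fun h => hlM (h.trans (Nat.div_dvd_of_dvd hqM))) hlS) =
            i (ψ (H.π (CuspForm.heckeAlgebra.T hl hlM hlS))) := by
  have : Fact p.Prime := ⟨hp⟩
  have hM : M = q * (M / q) := (Nat.mul_div_cancel' hqM).symm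
  have hN₀ : ¬ q ∣ M / q := fun h => hq2 (by rw [sq, hM]; exact Nat.mul_dvd_mul_left q h)
  obtain ⟨K, _, _, i, χ, hχ⟩ := Local.exists_hom_div_of_unramified hM hq hqp hN₀ (π := H.π)
    ⟨hpS, hMS, Reps.natCast_mem_maximalIdeal hpO, H.charpoly_frob⟩ hirr O' (ψ : T →+* O') hψ hunr
  exact ⟨K, inferInstance, inferInstance, i, χ, fun l hl hlM hlS => hχ l hl _ hlM hlS⟩

end FLTAgent.Lower
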