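import Fermat.Agent.Lower.Defs
import Fermat.Agent.LocP.Place
import Fermat.Agent.Mazur.Descent.Tame
import Fermat.Agent.MazurP.RamLine

/-!
# Tame inertia in finite quotients

For `l ≠ p` one inertia element generates the image of inertia in every finite quotient of
`Gal(ℚ̄/ℚ)` where that image is a `p`-group (`exists_inertia_generator_all`, by compactness of
inertia).  If `p ∣ l - 1`, together with a Frobenius it generates the image of the decomposition
group and satisfies the tame relation `φ σ φ⁻¹ = σ ^ l` there (`exists_tamePair`).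
-/

set_option autoImplicit false
set_option linter.style.haveILetI false

noncomputable section

open scoped Pointwise

namespace FLTAgent.Lower

local notation "ℚ̄" => AlgebraicClosure ℚ
local notation "Γℚ" => (AlgebraicClosure ℚ ≃ₐ[ℚ] AlgebraicClosure ℚ)

/-- A condition on the value at one point cuts out a closed set of automorphisms. -/
theorem isClosed_setOf_apply (x : ℚ̄) (P : ℚ̄ → Prop) : IsClosed {σ : Γℚ | P (σ x)} := by
  haveI : FiniteDimensional ℚ (IntermediateField.adjoin ℚ {x}) :=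
    IntermediateField.adjoin.finiteDimensional (Algebra.IsIntegral.isIntegral x)
  rw [← isOpen_compl_iff, isOpen_iff_mem_nhds]
  intro σ hσ
  rw [mem_nhds_iff]
  refine ⟨(fun τ => σ⁻¹ * τ) ⁻¹' ((IntermediateField.adjoin ℚ {x}).fixingSubgroup : Set Γℚ),
    fun τ hτ => ?_, (IntermediateField.fixingSubgroup_isOpen _).preimage (continuous_const_mul _),
    by simp [one_mem]⟩
  have h := (IntermediateField.mem_fixingSubgroup_iff _ _).mp hτ x
    (IntermediateField.mem_adjoin_simple_self ℚ x)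
  rw [AlgEquiv.mul_apply] at h
  have h' : τ x = σ x := by
    conv_rhs => rw [← h]
    rw [← AlgEquiv.mul_apply, mul_inv_cancel, AlgEquiv.one_apply]
  show ¬ P (τ x)
  rw [h']
  exact hσ

theorem isClosed_inertia (A : ValuationSubring ℚ̄) :
    IsClosed (A.inertiaSubgroupIn ℚ : Set Γℚ) := by
  have : (A.inertiaSubgroupIn ℚ : Set Γℚ) =
      (⋂ x : ℚ̄, {σ : Γℚ | σ x ∈ A ↔ x ∈ A}) ∩ ⋂ a : A, {σ : Γℚ | σ a - a ∈ A.nonunits} := by
    ext σ
    simp only [SetLike.mem_coe, Set.mem_inter_iff, Set.mem_iInter, Set.mem_ofPred_eq,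
      GalCommon.mem_inertiaSubgroupIn_iff, Subtype.forall]
    constructor
    · rintro ⟨h1, h2⟩
      exact ⟨fun x => GalCommon.map_mem_iff_of_mem_decomposition h1, h2⟩
    · rintro ⟨h1, h2⟩
      refine ⟨MulAction.mem_stabilizer_iff.mpr (SetLike.ext fun x => ?_), h2⟩
      have e : σ (σ⁻¹ x) = x := by rw [← AlgEquiv.mul_apply, mul_inv_cancel, AlgEquiv.one_apply]
      rw [ValuationSubring.mem_pointwise_smul_iff_inv_smul_mem]
      show σ⁻¹ x ∈ A ↔ x ∈ A
      conv_rhs => rw [← e]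
      exact (h1 _).symm
  rw [this]
  exact (isClosed_iInter fun x => isClosed_setOf_apply x fun y => y ∈ A ↔ x ∈ A).inter
    (isClosed_iInter fun a => isClosed_setOf_apply (a : ℚ̄) fun y => y - a ∈ A.nonunits)

/-- A finite quotient in which the image of inertia is a `p`-group. -/
structure PQuot (p : ℕ) (A : ValuationSubring ℚ̄) : Type 1 where
  G : Type
  [grp : Group G]
  [fin : Finite G]
  f : Γℚ →* G
  L : IntermediateField ℚ ℚ̄
  [fd : FiniteDimensional ℚ L]
  triv : ∀ τ : Γℚ, (∀ x ∈ L, τ x = x) → f τ = 1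
  pgroup : ∀ τ ∈ A.inertiaSubgroupIn ℚ, ∃ j : ℕ, f τ ^ (p ^ j) = 1

attribute [instance] PQuot.grp PQuot.fin PQuot.fd

/-- One inertia element generates the image of inertia in every finite quotient in which it is a
`p`-group. -/
theorem exists_inertia_generator_all {p l : ℕ} (hp : p.Prime) (hl : l.Prime) (hlp : l ≠ p)
    (A : ValuationSubring ℚ̄) (hA : A.LiesOverPrime l) :
    ∃ σ ∈ A.inertiaSubgroupIn ℚ, ∀ Q : PQuot p A,
      ∀ τ ∈ A.inertiaSubgroupIn ℚ, Q.f τ ∈ Subgroup.zpowers (Q.f σ) := by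
  classical
  haveI := GalCommon.isGalois_Qbar
  let C : PQuot p A → Set Γℚ := fun Q =>
    {σ | ∀ τ ∈ A.inertiaSubgroupIn ℚ, Q.f τ ∈ Subgroup.zpowers (Q.f σ)}
  have hC : ∀ Q, IsClosed (C Q) := fun Q => by
    rw [← isOpen_compl_iff, isOpen_iff_mem_nhds]
    intro σ hσ
    rw [mem_nhds_iff]
    refine ⟨(fun τ => σ⁻¹ * τ) ⁻¹' (Q.L.fixingSubgroup : Set Γℚ), fun τ hτ => ?_,
      (IntermediateField.fixingSubgroup_isOpen _).preimage (continuous_const_mul _),
      by simp [one_mem]⟩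
    have h := Q.triv _ ((IntermediateField.mem_fixingSubgroup_iff _ _).mp hτ)
    rw [map_mul, map_inv, inv_mul_eq_one] at h
    show ¬ ∀ τ' ∈ A.inertiaSubgroupIn ℚ, Q.f τ' ∈ Subgroup.zpowers (Q.f τ)
    rw [← h]
    exact hσ
  obtain ⟨σ, hσI, hσ⟩ : ((A.inertiaSubgroupIn ℚ : Set Γℚ) ∩ ⋂ Q, C Q).Nonempty := by
    refine (isClosed_inertia A).isCompact.inter_iInter_nonempty C hC fun s => ?_
    let f : Γℚ →* (∀ Q : s, Q.1.G) := MonoidHom.pi fun Q => Q.1.f
    let L : IntermediateField ℚ ℚ̄ := ⨆ Q : s, Q.1.L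
    have hL : ∀ τ : Γℚ, (∀ x ∈ L, τ x = x) → f τ = 1 := fun τ h => funext fun Q =>
      Q.1.triv τ fun x hx => h x (le_iSup (fun Q : s => Q.1.L) Q hx)
    have hpg : ∀ τ ∈ A.inertiaSubgroupIn ℚ, ∃ j : ℕ, f τ ^ p ^ j = 1 := by
      intro τ hτ
      choose j hj using fun Q : s => Q.1.pgroup τ hτ
      refine ⟨Finset.univ.sup j, funext fun Q => ?_⟩
      obtain ⟨m, hm⟩ := Nat.exists_eq_add_of_le (Finset.le_sup (f := j) (Finset.mem_univ Q))
      show Q.1.f τ ^ p ^ Finset.univ.sup j = 1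
      rw [hm, pow_add, pow_mul, hj, one_pow]
    obtain ⟨i₀, hi₀, hgen, -⟩ :=
      Mazur.Tame.exists_inertia_generator f L hL hl A hA hp (Ne.symm hlp) hpg
    refine ⟨i₀, hi₀, Set.mem_iInter₂.mpr fun Q hQ τ hτ => ?_⟩
    obtain ⟨n, hn⟩ := Subgroup.mem_zpowers_iff.mp (hgen τ hτ)
    exact Subgroup.mem_zpowers_iff.mpr ⟨n, congrFun hn ⟨Q, hQ⟩⟩
  exact ⟨σ, hσI, fun Q => Set.mem_iInter.mp hσ Q⟩

/-- An inertia element `σ` and a Frobenius `φ` which generate the image of the decomposition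
group in every finite quotient in which the image of inertia is a `p`-group, with the tame
relation. -/
theorem exists_tamePair {p l : ℕ} (hp : p.Prime) (hl : l.Prime) (hlp : l ≠ p)
    (hdvd : p ∣ l - 1) (A : ValuationSubring ℚ̄) (hA : A.LiesOverPrime l) :
    ∃ σ φ : Γℚ, IsInertiaGen p l A σ ∧ A.IsFrobeniusAt φ l ∧
      ∀ (G : Type) [Group G] [Finite G] (f : Γℚ →* G),
        (∃ L : IntermediateField ℚ ℚ̄, FiniteDimensional ℚ L ∧
          ∀ τ : Γℚ, (∀ x ∈ L, τ x = x) → f τ = 1) →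
        (∀ τ ∈ A.inertiaSubgroupIn ℚ, ∃ j : ℕ, f τ ^ (p ^ j) = 1) →
        f (φ * σ * φ⁻¹) = f σ ^ l ∧
        (∀ τ ∈ A.inertiaSubgroupIn ℚ, f τ ∈ Subgroup.zpowers (f σ)) ∧
        ∀ τ ∈ A.decompositionSubgroup ℚ, f τ ∈ Subgroup.closure {f σ, f φ} := by
  haveI : Fact p.Prime := ⟨hp⟩
  haveI : Fact l.Prime := ⟨hl⟩
  obtain ⟨σ, hσ, hgen⟩ := exists_inertia_generator_all hp hl hlp A hA
  obtain ⟨φ, hφ⟩ := GalCommon.exists_isFrobeniusAt hl hA
  refine ⟨σ, φ, ⟨hσ, ?_⟩, hφ, fun G _ _ f ⟨L, hL, htriv⟩ hpg => ?_⟩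
  · intro μ hμ a ha hcon
    set m := (l - 1) / p
    have hmp : m * p = l - 1 := Nat.div_mul_cancel hdvd
    let χ : Γℚ →* (ZMod l)ˣ :=
      { toFun := fun τ => (modularCyclotomicCharacter ℚ̄ (EllTorsion.card_rootsOfUnity_Qbar l)
          (τ : ℚ̄ ≃+* ℚ̄)) ^ m
        map_one' := by
          show (modularCyclotomicCharacter ℚ̄ (EllTorsion.card_rootsOfUnity_Qbar l)
            (1 : ℚ̄ ≃+* ℚ̄)) ^ m = 1
          rw [map_one, one_pow]
        map_mul' := fun x y => by
          show (modularCyclotomicCharacter ℚ̄ (EllTorsion.card_rootsOfUnity_Qbar l)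
            ((x : ℚ̄ ≃+* ℚ̄) * (y : ℚ̄ ≃+* ℚ̄))) ^ m = _
          rw [map_mul, mul_pow] }
    have hχ : ∀ τ, ((χ τ : (ZMod l)ˣ) : ZMod l) = MazurChain.cyc l τ ^ m := fun τ => by
      rw [MazurChain.cyc_eq]; exact Units.val_pow_eq_pow_val _ _
    haveI : FiniteDimensional ℚ (IntermediateField.adjoin ℚ {μ}) :=
      IntermediateField.adjoin.finiteDimensional (Algebra.IsIntegral.isIntegral μ)
    have htriv : ∀ τ : Γℚ, (∀ x ∈ IntermediateField.adjoin ℚ {μ}, τ x = x) → χ τ = 1 := by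
      intro τ hτ
      refine Units.ext ?_
      rw [hχ, MazurChain.cyc_eq_one_of_fix l τ (fun t ht => ?_), one_pow, Units.val_one]
      haveI : NeZero l := ⟨hl.ne_zero⟩
      obtain ⟨i, -, rfl⟩ := hμ.eq_pow_of_pow_eq_one ht
      rw [map_pow, hτ μ (IntermediateField.mem_adjoin_simple_self ℚ μ)]
    let Q : PQuot p A :=
      { G := (ZMod l)ˣ
        f := χ
        L := IntermediateField.adjoin ℚ {μ}
        triv := htriv
        pgroup := fun τ _ => ⟨1, by
          rw [pow_one, show χ τ = (modularCyclotomicCharacter ℚ̄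
            (EllTorsion.card_rootsOfUnity_Qbar l) (τ : ℚ̄ ≃+* ℚ̄)) ^ m from rfl, ← pow_mul, hmp,
            ZMod.units_pow_card_sub_one_eq_one]⟩ }
    have hσ1 : χ σ = 1 := by
      refine Units.ext ?_
      rw [hχ, Units.val_one]
      have h1 : σ μ = μ ^ (MazurChain.cyc l σ).val := by
        haveI : NeZero l := ⟨hl.ne_zero⟩
        rw [MazurChain.cyc_eq]
        have := modularCyclotomicCharacter.spec ℚ̄ (EllTorsion.card_rootsOfUnity_Qbar l)
          (σ : ℚ̄ ≃+* ℚ̄) (t := (hμ.isUnit hl.ne_zero).unit)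
          (by rw [mem_rootsOfUnity, Units.ext_iff, Units.val_pow_eq_pow_val]
              simpa using hμ.pow_eq_one)
        simpa using this
      rw [ha] at h1
      have h2 := ((hμ.isOfFinOrder hl.ne_zero).pow_eq_pow_iff_modEq).mp h1
      rw [← hμ.eq_orderOf] at h2
      haveI : NeZero l := ⟨hl.ne_zero⟩
      rw [(ZMod.natCast_eq_natCast_iff _ _ _).mpr h2, ZMod.natCast_zmod_val] at hcon
      exact hcon
    have hl2 := hl.two_le
    obtain ⟨g, hg⟩ := IsCyclic.exists_ofOrder_eq_natCard (α := (ZMod l)ˣ)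
    rw [Nat.card_eq_fintype_card, ZMod.card_units] at hg
    obtain ⟨τ, hτ, hτg⟩ := MazurP.exists_inertia_cyc_eq hA g
    have h := hgen Q τ hτ
    rw [show Q.f σ = 1 from hσ1, Subgroup.zpowers_one_eq_bot, Subgroup.mem_bot] at h
    have h' : g ^ m = 1 := by
      refine Units.ext ?_
      rw [Units.val_pow_eq_pow_val, ← hτg, ← hχ, Units.val_one]
      exact congrArg Units.val h
    have hm : 0 < m := by
      rcases Nat.eq_zero_or_pos m with h0 | h0
      · rw [h0, zero_mul] at hmp; omega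
      · exact h0
    have h3 := Nat.le_of_dvd hm (orderOf_dvd_of_pow_eq_one h')
    have h4 : m < m * p := lt_mul_of_one_lt_right hm hp.one_lt
    omega
  · let Q : PQuot p A := ⟨G, f, L, htriv, hpg⟩
    have hσQ := hgen Q
    obtain ⟨i₀, -, -, hF⟩ :=
      Mazur.Tame.exists_inertia_generator f L htriv hl A hA hp (Ne.symm hlp) hpg
    refine ⟨hF φ hφ σ hσ, hσQ, fun τ hτ => ?_⟩
    obtain ⟨i, ι, hι, hag⟩ := LocP.exists_eq_frob_pow_mul hA hφ hτ L
    have h1 : f τ = f φ ^ i * f ι := by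
      rw [← map_pow, ← map_mul, ← inv_mul_eq_one, ← map_inv, ← map_mul]
      refine htriv _ fun x hx => ?_
      rw [AlgEquiv.mul_apply, ← hag x hx, ← AlgEquiv.mul_apply, inv_mul_cancel, AlgEquiv.one_apply]
    rw [h1]
    exact mul_mem (pow_mem (Subgroup.subset_closure (by simp)) i)
      (((Subgroup.zpowers_le (G := G)).mpr (Subgroup.subset_closure (Set.mem_insert (f σ) {f φ}))
        (hσQ ι hι)))

end FLTAgent.Lower
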